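import Fermat.Agent.Lojasiewicz.Inequality

/-!
# Consequences of the inequality of Łojasiewicz

The distance form, Hölder continuity, polynomial bounds at infinity, and the exponential,
logarithm and sine, whose graphs are not semialgebraic.
-/

set_option autoImplicit false

noncomputable section

namespace Fermat.Agent.Lojasiewicz

open MvPolynomial Fermat.Agent.HilbertSeventeen Fermat.Agent.TarskiSeidenberg

variable {n : ℕ} {f : (Fin n → ℝ) → ℝ} {K S : Set (Fin n → ℝ)}

theorem isSemialgebraic_nonneg {R : Type*} [Field R] [LinearOrder R] [IsStrictOrderedRing R]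
    (p : MvPolynomial (Fin n) R) : IsSemialgebraic {x : Fin n → R | 0 ≤ eval x p} := by
  convert (IsSemialgebraic.posSet (-p)).compl using 1
  ext x
  simp

theorem isSemialgebraic_zeros (hfs : IsSemialgebraic (graphOn K f)) :
    IsSemialgebraic {x | x ∈ K ∧ f x = 0} := by
  convert (hfs.inter (IsSemialgebraic.zeroSet (X 0 : MvPolynomial (Fin (n + 1)) ℝ))).projection
    using 1
  ext x
  simp only [Set.mem_ofPred_eq, Set.mem_inter_iff, cons_mem_graphOn, eval_X, Fin.cons_zero]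
  exact ⟨fun h => ⟨0, ⟨h.1, h.2.symm⟩, rfl⟩, fun ⟨t, ⟨h, e⟩, e0⟩ => ⟨h, e.symm.trans e0⟩⟩

/-- The graph of the distance to a compact semialgebraic set. -/
theorem isSemialgebraic_infDist {Z : Set (Fin n → ℝ)} (hKs : IsSemialgebraic K)
    (hZs : IsSemialgebraic Z) (hZ : IsCompact Z) (hne : Z.Nonempty) :
    IsSemialgebraic (graphOn K fun x => Metric.infDist x Z) := by
  let iy : Fin n → Fin (n + (n + 1)) := Fin.castAdd (n + 1)
  let ix : Fin n → Fin (n + (n + 1)) := fun i => Fin.natAdd n i.succ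
  let i₀ : Fin (n + (n + 1)) := Fin.natAdd n 0
  let d : Fin n → MvPolynomial (Fin (n + (n + 1))) ℝ := fun i => X (ix i) - X (iy i)
  have T1 := ((isSemialgebraic_comp hZs iy).inter (isSemialgebraic_biInter Finset.univ fun i _ =>
    (isSemialgebraic_nonneg (X i₀ - d i)).inter
      (isSemialgebraic_nonneg (X i₀ + d i)))).projection_many
  have T2 := ((isSemialgebraic_comp hZs iy).inter
    ((IsSemialgebraic.posSet (X i₀)).inter (isSemialgebraic_biInter Finset.univ fun i _ =>
    (IsSemialgebraic.posSet (X i₀ - d i)).inter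
      (IsSemialgebraic.posSet (X i₀ + d i))))).projection_many
  convert ((isSemialgebraic_comp hKs Fin.succ).inter
    (isSemialgebraic_nonneg (X 0 : MvPolynomial (Fin (n + 1)) ℝ))).inter (T1.inter T2.compl) using 1
  ext z
  have hy : ∀ y : Fin n → ℝ, Fin.append y z ∘ iy = y := fun y => funext fun i => by simp [iy]
  simp only [graphOn, Set.mem_ofPred_eq, Set.mem_inter_iff, Set.mem_compl_iff, Set.mem_iInter,
    hy, eval_X, map_sub, map_add, d, ix, iy, i₀, Fin.append_left, Fin.append_right,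
    Finset.mem_univ, forall_true_left]
  have hle : 0 ≤ z 0 → ∀ y : Fin n → ℝ, (∀ i, 0 ≤ z 0 - (z i.succ - y i) ∧
      0 ≤ z 0 + (z i.succ - y i)) ↔ dist (Fin.tail z) y ≤ z 0 := fun h0 y => by
    rw [dist_pi_le_iff h0]
    refine forall_congr' fun i => ?_
    rw [Real.dist_eq, abs_le]
    exact ⟨fun h => ⟨by simp only [Fin.tail]; linarith, by simp only [Fin.tail]; linarith⟩,
      fun h => by simp only [Fin.tail] at h; exact ⟨by linarith, by linarith⟩⟩
  have hlt : 0 < z 0 → ∀ y : Fin n → ℝ, (∀ i, 0 < z 0 - (z i.succ - y i) ∧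
      0 < z 0 + (z i.succ - y i)) ↔ dist (Fin.tail z) y < z 0 := fun h0 y => by
    rw [dist_pi_lt_iff h0]
    refine forall_congr' fun i => ?_
    rw [Real.dist_eq, abs_lt]
    exact ⟨fun h => ⟨by simp only [Fin.tail]; linarith, by simp only [Fin.tail]; linarith⟩,
      fun h => by simp only [Fin.tail] at h; exact ⟨by linarith, by linarith⟩⟩
  constructor
  · rintro ⟨hK, he⟩
    have h0 : 0 ≤ z 0 := he ▸ Metric.infDist_nonneg
    obtain ⟨y, hyZ, hy⟩ := hZ.exists_infDist_eq_dist hne (Fin.tail z)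
    exact ⟨⟨hK, h0⟩, ⟨y, hyZ, (hle h0 y).2 (he.trans hy).ge⟩, fun ⟨y', hy', h1, h2⟩ =>
      ((hlt h1 y').1 h2).not_ge (he ▸ Metric.infDist_le_dist_of_mem hy')⟩
  · rintro ⟨⟨hK, h0⟩, ⟨y, hyZ, h1⟩, h2⟩
    refine ⟨hK, le_antisymm ?_ ((Metric.infDist_le_dist_of_mem hyZ).trans ((hle h0 y).1 h1))⟩
    refine (Metric.le_infDist hne).2 fun y' hy' => ?_
    by_contra! hc
    have hpos : 0 < z 0 := lt_of_le_of_lt dist_nonneg hc
    exact h2 ⟨y', hy', hpos, (hlt hpos y').2 hc⟩

/-- **The distance form.** -/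
theorem exists_infDist_le (hK : IsCompact K) (hfc : ContinuousOn f K)
    (hfs : IsSemialgebraic (graphOn K f)) :
    ∃ (c : ℝ) (N : ℕ), 0 < c ∧ 0 < N ∧
      ∀ x ∈ K, c * Metric.infDist x {x | x ∈ K ∧ f x = 0} ^ N ≤ |f x| := by
  set Z := {x | x ∈ K ∧ f x = 0}
  rcases Z.eq_empty_or_nonempty with e | hne
  · exact ⟨1, 1, one_pos, one_pos, fun x _ => by simp [e]⟩
  have hZc : IsCompact Z := hK.of_isClosed_subset
    (hfc.preimage_isClosed_of_isClosed hK.isClosed (isClosed_singleton (x := (0 : ℝ))))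
    fun x hx => hx.1
  obtain ⟨C, N, hC, hN, h⟩ := exists_pow_le hK hfc
    (Metric.continuous_infDist_pt Z).continuousOn hfs
    (isSemialgebraic_infDist (isSemialgebraic_of_graphOn hfs) (isSemialgebraic_zeros hfs) hZc hne)
    fun x hx e => Metric.infDist_zero_of_mem ⟨hx, e⟩
  refine ⟨1 / C, N, by positivity, hN, fun x hx => ?_⟩
  have := h x hx
  rw [abs_of_nonneg Metric.infDist_nonneg] at this
  rw [div_mul_eq_mul_div, one_mul, div_le_iff₀ hC, mul_comm]
  exact this

/-- **Hölder continuity.** -/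
theorem exists_holder (hK : IsCompact K) (hfc : ContinuousOn f K)
    (hfs : IsSemialgebraic (graphOn K f)) :
    ∃ (C : ℝ) (N : ℕ), 0 < C ∧ 0 < N ∧ ∀ x ∈ K, ∀ y ∈ K, |f x - f y| ^ N ≤ C * dist x y := by
  let pa : (Fin (n + n) → ℝ) → Fin n → ℝ := fun z => z ∘ Fin.castAdd n
  let pb : (Fin (n + n) → ℝ) → Fin n → ℝ := fun z => z ∘ Fin.natAdd n
  set K₂ : Set (Fin (n + n) → ℝ) := {z | pa z ∈ K ∧ pb z ∈ K}
  have happ : ∀ x y : Fin n → ℝ, pa (Fin.append x y) = x ∧ pb (Fin.append x y) = y := fun x y =>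
    ⟨funext fun i => Fin.append_left x y i, funext fun i => Fin.append_right x y i⟩
  have hK₂ : IsCompact K₂ := by
    have e : K₂ = (fun p : (Fin n → ℝ) × (Fin n → ℝ) => Fin.append p.1 p.2) '' (K ×ˢ K) := by
      ext z
      refine ⟨fun hz => ⟨(pa z, pb z), ⟨hz.1, hz.2⟩, ?_⟩, ?_⟩
      · funext i
        refine Fin.addCases (fun i => ?_) (fun i => ?_) i
        · exact Fin.append_left _ _ i
        · exact Fin.append_right _ _ i
      · rintro ⟨⟨x, y⟩, ⟨hx, hy⟩, rfl⟩
        exact ⟨(happ x y).1.symm ▸ hx, (happ x y).2.symm ▸ hy⟩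
    rw [e]
    refine (hK.prod hK).image (continuous_pi fun i => ?_)
    refine Fin.addCases (fun i => ?_) (fun i => ?_) i <;> simp <;> fun_prop
  have hca : Continuous pa := continuous_pi fun i => continuous_apply _
  have hcb : Continuous pb := continuous_pi fun i => continuous_apply _
  set G : (Fin (n + n) → ℝ) → ℝ := fun z => f (pa z) - f (pb z)
  set D : MvPolynomial (Fin (n + n)) ℝ :=
    ∑ i : Fin n, (X (Fin.castAdd n i) - X (Fin.natAdd n i)) ^ 2
  have hD : ∀ z, eval z D = ∑ i, (pa z i - pb z i) ^ 2 := fun z => by simp [D, pa, pb]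
  have hKs := isSemialgebraic_of_graphOn hfs
  have hDs : IsSemialgebraic (graphOn K₂ fun z => eval z D) := by
    convert (isSemialgebraic_comp ((isSemialgebraic_comp hKs (Fin.castAdd n)).inter
      (isSemialgebraic_comp hKs (Fin.natAdd n))) Fin.succ).inter
      (IsSemialgebraic.zeroSet (X 0 - rename Fin.succ D)) using 1
    ext z
    simp only [graphOn, K₂, pa, pb, Set.mem_ofPred_eq, Set.mem_inter_iff, map_sub, eval_X,
      eval_rename, sub_eq_zero]
    rfl
  have hGs : IsSemialgebraic (graphOn K₂ G) := by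
    let ja : Fin (2 + (n + n + 1)) := Fin.castAdd (n + n + 1) 0
    let jb : Fin (2 + (n + n + 1)) := Fin.castAdd (n + n + 1) 1
    convert (((isSemialgebraic_comp hfs
      (Fin.cons ja fun i => Fin.natAdd 2 (Fin.castAdd n i).succ)).inter (isSemialgebraic_comp hfs
      (Fin.cons jb fun i => Fin.natAdd 2 (Fin.natAdd n i).succ))).inter
      (IsSemialgebraic.zeroSet (X (Fin.natAdd 2 0) - (X ja - X jb)))).projection_many using 1
    ext z
    have hc : ∀ (j : Fin (2 + (n + n + 1))) (σ : Fin n → Fin (n + n)) (y : Fin 2 → ℝ),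
        Fin.append y z ∘ (Fin.cons j fun i => Fin.natAdd 2 (σ i).succ : Fin (n + 1) → _) =
          Fin.cons (Fin.append y z j) (Fin.tail z ∘ σ) := fun j σ y => by
      funext i; refine Fin.cases ?_ (fun i => ?_) i <;> simp [Fin.tail]
    simp only [graphOn, G, K₂, pa, pb, Set.mem_ofPred_eq, Set.mem_inter_iff,
      hc (σ := Fin.castAdd n),
      hc (σ := Fin.natAdd n), map_sub, eval_X, sub_eq_zero, ja, jb, Fin.append_left,
      Fin.append_right, Fin.tail_cons, Fin.cons_zero]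
    constructor
    · rintro ⟨⟨ha, hb⟩, e⟩
      exact ⟨![f (Fin.tail z ∘ Fin.castAdd n), f (Fin.tail z ∘ Fin.natAdd n)],
        ⟨⟨ha, rfl⟩, ⟨hb, rfl⟩⟩, e⟩
    · rintro ⟨y, ⟨⟨ha, e0⟩, ⟨hb, e1⟩⟩, e⟩
      exact ⟨⟨ha, hb⟩, by rw [e, e0, e1]⟩
  obtain ⟨C, N, hC, hN, h⟩ := exists_pow_le hK₂ (f := fun z => eval z D) (g := G)
    D.continuous_eval.continuousOn
    ((hfc.comp hca.continuousOn fun z hz => hz.1).sub (hfc.comp hcb.continuousOn fun z hz => hz.2))
    hDs hGs fun z _ e => by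
      rw [hD, Finset.sum_eq_zero_iff_of_nonneg fun i _ => sq_nonneg _] at e
      have : pa z = pb z := funext fun i => by simpa [sub_eq_zero] using e i (Finset.mem_univ i)
      simp [G, this]
  refine ⟨C * (n * Metric.diam K) + 1, N, by positivity, hN, fun x hx y hy => ?_⟩
  have hxy := h (Fin.append x y) ⟨(happ x y).1.symm ▸ hx, (happ x y).2.symm ▸ hy⟩
  simp only [G, hD, (happ x y).1, (happ x y).2] at hxy
  refine hxy.trans ((mul_le_mul_of_nonneg_left ?_ hC.le).trans
    (?_ : C * (n * Metric.diam K * dist x y) ≤ _))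
  · rw [abs_of_nonneg (Finset.sum_nonneg fun i _ => sq_nonneg _)]
    calc ∑ i, (x i - y i) ^ 2 ≤ ∑ _i : Fin n, Metric.diam K * dist x y := by
          refine Finset.sum_le_sum fun i _ => ?_
          rw [← sq_abs, sq, ← Real.dist_eq]
          exact mul_le_mul ((dist_le_pi_dist x y i).trans
            (Metric.dist_le_diam_of_mem hK.isBounded hx hy)) (dist_le_pi_dist x y i) dist_nonneg
            Metric.diam_nonneg
      _ = n * Metric.diam K * dist x y := by simp; ring
  · nlinarith [dist_nonneg (x := x) (y := y)]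

/-- The pairs of a level `1 + |x|²` and a solution of an equation in the value of `f`. -/
theorem isSemialgebraic_sphereLevels (hfs : IsSemialgebraic (graphOn S f))
    (q : MvPolynomial (Fin 2) ℝ) :
    IsSemialgebraic {w : Fin 2 → ℝ | ∃ x ∈ S,
      w 1 = 1 + ∑ i, x i * x i ∧ eval ![w 0, f x] q = 0} := by
  let ix : Fin n → Fin (n + 1 + 2) := fun i => Fin.castAdd 2 i.succ
  let ia : Fin (n + 1 + 2) := Fin.castAdd 2 0
  convert ((isSemialgebraic_comp hfs (Fin.castAdd 2)).inter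
    ((IsSemialgebraic.zeroSet (X (Fin.natAdd (n + 1) 1) - (1 + ∑ i, X (ix i) * X (ix i)))).inter
    (IsSemialgebraic.zeroSet (rename ![Fin.natAdd (n + 1) 0, ia] q)))).projection_many using 1
  ext w
  have hc : ∀ y : Fin (n + 1) → ℝ, Fin.append y w ∘ Fin.castAdd 2 = y := fun y =>
    funext fun i => Fin.append_left y w i
  have hq : ∀ y : Fin (n + 1) → ℝ,
      Fin.append y w ∘ (![Fin.natAdd (n + 1) 0, ia] : Fin 2 → _) = ![w 0, y 0] := fun y => by
    funext i
    fin_cases i <;> simp only [Function.comp_apply, ia, Matrix.cons_val_zero, Matrix.cons_val_one,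
      Fin.zero_eta, Fin.mk_one, Fin.append_left, Fin.append_right]
  simp only [Set.mem_ofPred_eq, Set.mem_inter_iff, hc, hq, eval_rename, map_sub, map_add, map_one,
    map_sum, map_mul, eval_X, sub_eq_zero, ix, Fin.append_left, Fin.append_right]
  constructor
  · rintro ⟨x, hx, e1, e2⟩
    exact ⟨Fin.cons (f x) x, cons_mem_graphOn.2 ⟨hx, rfl⟩, by simpa using e1, by simpa using e2⟩
  · rintro ⟨y, ⟨hx, e⟩, e1, e2⟩
    exact ⟨Fin.tail y, hx, e1, e ▸ e2⟩

theorem isCompact_sublevel (hS : IsClosed S) (u : ℝ) :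
    IsCompact {x | x ∈ S ∧ 1 + ∑ i, x i * x i ≤ u} := by
  rcases le_or_gt 0 u with hu | hu
  · refine (isCompact_closedBall (0 : Fin n → ℝ) u).of_isClosed_subset
      (hS.inter (isClosed_le (f := fun x : Fin n → ℝ => 1 + ∑ i, x i * x i)
        (by fun_prop) continuous_const)) fun x hx => ?_
    rw [Metric.mem_closedBall, dist_zero_right, pi_norm_le_iff_of_nonneg hu]
    intro i
    have h1 : x i * x i ≤ ∑ i, x i * x i :=
      Finset.single_le_sum (fun j _ => mul_self_nonneg (x j)) (Finset.mem_univ i)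
    rw [Real.norm_eq_abs]
    nlinarith [hx.2, sq_abs (x i), abs_nonneg (x i)]
  · convert isCompact_empty using 1
    refine Set.eq_empty_of_forall_notMem fun x hx => ?_
    linarith [hx.2, Finset.sum_nonneg (fun i (_ : i ∈ Finset.univ) => mul_self_nonneg (x i))]

/-- **Polynomial growth at infinity.** -/
theorem exists_abs_le (hS : IsClosed S) (hfc : ContinuousOn f S)
    (hfs : IsSemialgebraic (graphOn S f)) :
    ∃ (C : ℝ) (N : ℕ), 0 < C ∧ ∀ x ∈ S, |f x| ≤ C * (1 + ∑ i, x i * x i) ^ N := by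
  have hA := isSemialgebraic_sphereLevels hfs (X 0 * X 0 - X 1 * X 1)
  obtain ⟨C, N, B, hC, -, h⟩ := exists_growth_bound hA fun u => by
    obtain ⟨M, hM⟩ := (isCompact_sublevel hS u).exists_bound_of_continuousOn
      (hfc.mono fun x hx => hx.1)
    refine ⟨max M 0, fun v ⟨x, hx, e1, e2⟩ => ?_⟩
    have hM' : |f x| ≤ M := hM x ⟨hx, e1.ge⟩
    simp [sub_eq_zero] at e2
    calc v ≤ |v| := le_abs_self v
      _ = |f x| := (mul_self_inj (abs_nonneg v) (abs_nonneg _)).1 (by simpa using e2)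
      _ ≤ max M 0 := hM'.trans (le_max_left _ _)
  obtain ⟨M, hM⟩ := (isCompact_sublevel hS B).exists_bound_of_continuousOn
    (hfc.mono fun x hx => hx.1)
  refine ⟨C + |M| + 1, N, by positivity, fun x hx => ?_⟩
  have hu : (1 : ℝ) ≤ 1 + ∑ i, x i * x i :=
    le_add_of_nonneg_right (Finset.sum_nonneg fun i _ => mul_self_nonneg _)
  have hp := one_le_pow₀ (n := N) hu
  rcases le_or_gt (1 + ∑ i, x i * x i) B with hb | hb
  · have hM' : |f x| ≤ |M| := (hM x ⟨hx, hb⟩).trans (le_abs_self _)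
    nlinarith [abs_nonneg M]
  · have := h _ |f x| hb ⟨x, hx, rfl, by simp⟩
    nlinarith [abs_nonneg M]

/-- **A positive function decreases at most like a power.** -/
theorem exists_le_of_pos (hS : IsClosed S) (hfc : ContinuousOn f S)
    (hfs : IsSemialgebraic (graphOn S f)) (hpos : ∀ x ∈ S, 0 < f x) :
    ∃ (c : ℝ) (N : ℕ), 0 < c ∧ ∀ x ∈ S, c / (1 + ∑ i, x i * x i) ^ N ≤ f x := by
  have hA := isSemialgebraic_sphereLevels hfs (X 0 * X 1 - 1)
  have key : ∀ u, ∃ m, 0 < m ∧ ∀ x ∈ S, 1 + ∑ i, x i * x i ≤ u → m ≤ f x := fun u => by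
    obtain ⟨m, hm, h⟩ := (isCompact_sublevel hS u).exists_forall_le' (hfc.mono fun x hx => hx.1)
      (a := 0) fun x hx => hpos x hx.1
    exact ⟨m, hm, fun x hx hu => h x ⟨hx, hu⟩⟩
  obtain ⟨C, N, B, hC, -, h⟩ := exists_growth_bound hA fun u => by
    obtain ⟨m, hm, hle⟩ := key u
    refine ⟨1 / m, fun v ⟨x, hx, e1, e2⟩ => ?_⟩
    simp [sub_eq_zero] at e2
    have hm' := hle x hx e1.ge
    rw [le_div_iff₀ hm]
    nlinarith [hpos x hx]
  obtain ⟨m, hm, hle⟩ := key B
  refine ⟨1 / (C + 1 / m + 1), N, by positivity, fun x hx => ?_⟩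
  have hu : (1 : ℝ) ≤ 1 + ∑ i, x i * x i :=
    le_add_of_nonneg_right (Finset.sum_nonneg fun i _ => mul_self_nonneg _)
  have hp := one_le_pow₀ (n := N) hu
  have hf := hpos x hx
  have key2 : 1 / f x ≤ (C + 1 / m + 1) * (1 + ∑ i, x i * x i) ^ N := by
    have h1 : 0 ≤ 1 / m := by positivity
    rcases le_or_gt (1 + ∑ i, x i * x i) B with hb | hb
    · have := one_div_le_one_div_of_le hm (hle x hx hb)
      nlinarith
    · have := h _ (1 / f x) hb ⟨x, hx, rfl, by simp [hf.ne']⟩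
      nlinarith
  rw [div_div, div_le_iff₀ (by positivity)]
  rw [div_le_iff₀ hf] at key2
  linarith

/-- **The exponential is not semialgebraic.** -/
theorem exp_not_semialgebraic :
    ¬ IsSemialgebraic {z : Fin 2 → ℝ | z 0 = Real.exp (z 1)} := fun h => by
  obtain ⟨C, N, B, -, -, hb⟩ := exists_growth_bound h fun u => ⟨Real.exp u, fun v hv => le_of_eq hv⟩
  have h1 := (Real.tendsto_exp_div_pow_atTop N).eventually_gt_atTop C
  obtain ⟨u, hu, hu', hu0⟩ := (h1.and ((Filter.eventually_gt_atTop B).and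
    (Filter.eventually_gt_atTop (0 : ℝ)))).exists
  have := hb u (Real.exp u) hu' rfl
  rw [lt_div_iff₀ (pow_pos hu0 N)] at hu
  linarith

/-- **The logarithm is not semialgebraic.** -/
theorem log_not_semialgebraic :
    ¬ IsSemialgebraic {z : Fin 2 → ℝ | 0 < z 1 ∧ z 0 = Real.log (z 1)} := fun h => by
  refine exp_not_semialgebraic ?_
  convert isSemialgebraic_comp h ![(1 : Fin 2), 0] using 1
  ext z
  simp only [Set.mem_ofPred_eq, Function.comp_apply, Matrix.cons_val_zero, Matrix.cons_val_one]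
  exact ⟨fun e => ⟨e ▸ Real.exp_pos _, by rw [e, Real.log_exp]⟩,
    fun ⟨h0, e⟩ => by rw [e, Real.exp_log h0]⟩

/-- **The sine is not semialgebraic.** -/
theorem sin_not_semialgebraic :
    ¬ IsSemialgebraic {z : Fin 2 → ℝ | z 0 = Real.sin (z 1)} := fun h => by
  obtain ⟨F, hF⟩ :=
    (h.inter (IsSemialgebraic.zeroSet (X 0 : MvPolynomial (Fin 2) ℝ))).projection.exists_finset
  obtain ⟨k, hk⟩ := exists_nat_gt ((∑ c ∈ F, |c|) / Real.pi)
  rw [div_lt_iff₀ Real.pi_pos] at hk
  have := hF ((k : ℝ) * Real.pi) ((k : ℝ) * Real.pi + Real.pi / 2)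
    (by linarith [Real.pi_pos]) fun c hc =>
      Or.inl (lt_of_le_of_lt ((le_abs_self c).trans
        (Finset.single_le_sum (fun c _ => abs_nonneg c) hc)) hk)
  obtain ⟨t, ht, ht0⟩ := this.1 ⟨0, show (0 : ℝ) = Real.sin (k * Real.pi) by
    rw [Real.sin_nat_mul_pi], by simp⟩
  simp at ht ht0
  rw [ht0] at ht
  simp [Real.sin_add_pi_div_two, Real.cos_nat_mul_pi] at ht
  exact pow_ne_zero k (by norm_num) ht.symm

end Fermat.Agent.Lojasiewicz
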