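import Fermat.Agent.TarskiSeidenberg.Semialgebraic

/-!
# Growth of semialgebraic functions of one variable

A semialgebraic set in the plane whose fibres over large arguments are bounded above is bounded by
a power of the argument, as the signs of finitely many polynomials are constant above one.
-/

set_option autoImplicit false
set_option linter.unusedSectionVars false

noncomputable section

open Polynomial

namespace Fermat.Agent.Lojasiewicz

open Fermat.Agent.HilbertSeventeen Fermat.Agent.TarskiSeidenberg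

variable {R : Type*} [Field R] [LinearOrder R] [IsStrictOrderedRing R]

/-- An explicit point beyond which a polynomial has the sign of its leading coefficient. -/
theorem sign_eval_of_large (p : R[X]) {x : R} (hx1 : 1 ≤ x)
    (hxS : (∑ i ∈ Finset.range p.natDegree, |p.coeff i|) < |p.leadingCoeff| * x) :
    SignType.sign (p.eval x) = SignType.sign p.leadingCoeff := by
  set d := p.natDegree
  set S := ∑ i ∈ Finset.range d, |p.coeff i| with hS
  have hS0 : 0 ≤ S := Finset.sum_nonneg fun i _ => abs_nonneg _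
  have hL : p.leadingCoeff ≠ 0 := fun e => by
    rw [e, abs_zero, zero_mul] at hxS
    exact hS0.not_gt hxS
  rcases Nat.eq_zero_or_pos d with h0 | h0
  · rw [eq_C_of_natDegree_eq_zero h0, eval_C, leadingCoeff_C]
  have hrest : |∑ i ∈ Finset.range d, p.coeff i * x ^ i| < |p.leadingCoeff| * x ^ d := by
    have h1 : |∑ i ∈ Finset.range d, p.coeff i * x ^ i| ≤ S * x ^ (d - 1) := by
      refine (Finset.abs_sum_le_sum_abs _ _).trans ?_
      rw [hS, Finset.sum_mul]
      refine Finset.sum_le_sum fun i hi => ?_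
      rw [abs_mul, abs_pow, abs_of_pos (show (0 : R) < x by linarith)]
      exact mul_le_mul_of_nonneg_left (pow_le_pow_right₀ hx1
        (Nat.le_sub_one_of_lt (Finset.mem_range.1 hi))) (abs_nonneg _)
    refine h1.trans_lt ?_
    calc S * x ^ (d - 1) < |p.leadingCoeff| * x * x ^ (d - 1) :=
          mul_lt_mul_of_pos_right hxS (pow_pos (by linarith) _)
      _ = |p.leadingCoeff| * x ^ d := by
          rw [mul_assoc, ← pow_succ', Nat.sub_add_cancel h0]
  have he : p.eval x = p.leadingCoeff * x ^ d + ∑ i ∈ Finset.range d, p.coeff i * x ^ i := by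
    rw [eval_eq_sum_range, Finset.sum_range_succ, add_comm]
    rfl
  rw [he]
  rcases hL.lt_or_gt with hL | hL
  · rw [sign_neg hL, sign_eq_neg_one_iff]
    rw [abs_of_neg hL] at hrest
    linarith [le_abs_self (∑ i ∈ Finset.range d, p.coeff i * x ^ i)]
  · rw [sign_pos hL, sign_eq_one_iff]
    rw [abs_of_pos hL] at hrest
    linarith [neg_abs_le (∑ i ∈ Finset.range d, p.coeff i * x ^ i)]

theorem abs_eval_le (p : R[X]) {u : R} (hu : 1 ≤ u) :
    |p.eval u| ≤ (∑ i ∈ Finset.range (p.natDegree + 1), |p.coeff i|) * u ^ p.natDegree := by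
  rw [eval_eq_sum_range, Finset.sum_mul]
  refine (Finset.abs_sum_le_sum_abs _ _).trans (Finset.sum_le_sum fun i hi => ?_)
  rw [abs_mul, abs_pow, abs_of_nonneg (zero_le_one.trans hu)]
  exact mul_le_mul_of_nonneg_left (pow_le_pow_right₀ hu
    (Nat.lt_succ_iff.1 (Finset.mem_range.1 hi))) (abs_nonneg _)

/-- A nonzero polynomial stays away from zero far to the right. -/
theorem exists_le_abs_eval (p : R[X]) (hp : p ≠ 0) :
    ∃ δ B : R, 0 < δ ∧ ∀ u, B < u → δ ≤ |p.eval u| := by
  have hL : p.leadingCoeff ≠ 0 := leadingCoeff_ne_zero.2 hp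
  rcases Nat.eq_zero_or_pos p.natDegree with h0 | h0
  · refine ⟨|p.leadingCoeff|, 0, abs_pos.2 hL, fun u _ => ?_⟩
    rw [eq_C_of_natDegree_eq_zero h0, eval_C, leadingCoeff_C]
  · have hdeg : 0 < p.degree := natDegree_pos_iff_degree_pos.1 h0
    have hC : ∀ c : R, (C c).degree < p.degree := fun c => degree_C_le.trans_lt hdeg
    obtain ⟨B₁, h1⟩ := exists_sign_atTop (p - C 1)
    obtain ⟨B₂, h2⟩ := exists_sign_atTop (p + C 1)
    refine ⟨1, max B₁ B₂, one_pos, fun u hu => ?_⟩
    have e1 := h1 u (le_max_left _ _ |>.trans_lt hu)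
    have e2 := h2 u (le_max_right _ _ |>.trans_lt hu)
    rw [leadingCoeff_sub_of_degree_lt (hC 1), eval_sub, eval_C] at e1
    rw [leadingCoeff_add_of_degree_lt' (hC 1), eval_add, eval_C] at e2
    rw [le_abs]
    rcases hL.lt_or_gt with hL | hL
    · rw [sign_neg hL, sign_eq_neg_one_iff] at e2
      right; linarith
    · rw [sign_pos hL, sign_eq_one_iff] at e1
      left; linarith

/-- The signs of a polynomial in two variables are constant above a power of the second. -/
theorem exists_sign_above (Q : R[X][X]) :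
    ∃ (C : R) (N : ℕ) (B : R), 0 ≤ C ∧ ∀ u, B < u → ∀ v v', C * u ^ N < v → C * u ^ N < v' →
      SignType.sign ((Q.map (evalRingHom u)).eval v) =
        SignType.sign ((Q.map (evalRingHom u)).eval v') := by
  rcases eq_or_ne Q 0 with rfl | hQ
  · exact ⟨0, 0, 0, le_rfl, fun u _ v v' _ _ => by simp⟩
  obtain ⟨δ, B, hδ, hB⟩ := exists_le_abs_eval Q.leadingCoeff (leadingCoeff_ne_zero.2 hQ)
  set d := Q.natDegree with hd
  set N := (Finset.range d).sup fun k => (Q.coeff k).natDegree
  set S := ∑ k ∈ Finset.range d, ∑ i ∈ Finset.range ((Q.coeff k).natDegree + 1),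
    |(Q.coeff k).coeff i| with hS
  have hS0 : 0 ≤ S := Finset.sum_nonneg fun k _ => Finset.sum_nonneg fun i _ => abs_nonneg _
  refine ⟨S / δ + 1, N, max B 1, by positivity, fun u hu v v' hv hv' => ?_⟩
  rw [max_lt_iff] at hu
  have hlead : (Q.map (evalRingHom u)).natDegree = d ∧
      (Q.map (evalRingHom u)).leadingCoeff = Q.leadingCoeff.eval u := by
    have hne : evalRingHom u Q.leadingCoeff ≠ 0 := fun e => by
      rw [coe_evalRingHom] at e
      have := hB u hu.1
      rw [e, abs_zero] at this
      exact this.not_gt hδ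
    exact ⟨natDegree_map_of_leadingCoeff_ne_zero _ hne,
      leadingCoeff_map_of_leadingCoeff_ne_zero _ hne⟩
  have key : ∀ w, (S / δ + 1) * u ^ N < w →
      SignType.sign ((Q.map (evalRingHom u)).eval w) = SignType.sign (Q.leadingCoeff.eval u) := by
    intro w hw
    have hpow : 1 ≤ u ^ N := one_le_pow₀ hu.2.le
    have hdiv : 0 ≤ S / δ := div_nonneg hS0 hδ.le
    have hw1 : 1 ≤ w := by nlinarith
    rw [← hlead.2]
    refine sign_eval_of_large _ hw1 ?_
    rw [hlead.1, hlead.2]
    calc ∑ i ∈ Finset.range d, |(Q.map (evalRingHom u)).coeff i|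
        ≤ S * u ^ N := by
          rw [hS, Finset.sum_mul]
          refine Finset.sum_le_sum fun k hk => ?_
          rw [coeff_map, coe_evalRingHom]
          refine (abs_eval_le _ hu.2.le).trans (mul_le_mul_of_nonneg_left
            (pow_le_pow_right₀ hu.2.le ?_) (Finset.sum_nonneg fun i _ => abs_nonneg _))
          exact Finset.le_sup (f := fun k => (Q.coeff k).natDegree) hk
      _ < δ * w := by
          have h1 : δ * ((S / δ + 1) * u ^ N) < δ * w := mul_lt_mul_of_pos_left hw hδ
          have h2 : δ * ((S / δ + 1) * u ^ N) = S * u ^ N + δ * u ^ N := by field_simp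
          nlinarith
      _ ≤ |Q.leadingCoeff.eval u| * w :=
          mul_le_mul_of_nonneg_right (hB u hu.1) (zero_le_one.trans hw1)
  rw [key v hv, key v' hv']

/-- A polynomial in two variables as a polynomial in the first. -/
def toNested : MvPolynomial (Fin 2) R →+* R[X][X] :=
  MvPolynomial.eval₂Hom ((C : R[X] →+* R[X][X]).comp C) ![X, C X]

theorem eval_toNested (p : MvPolynomial (Fin 2) R) (v u : R) :
    ((toNested p).map (evalRingHom u)).eval v = MvPolynomial.eval ![v, u] p := by
  have h : ((evalRingHom v).comp (mapRingHom (evalRingHom u))).comp toNested =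
      MvPolynomial.eval ![v, u] := by
    refine MvPolynomial.ringHom_ext (fun b => by simp [toNested]) fun i => ?_
    fin_cases i <;> simp [toNested]
  exact DFunLike.congr_fun h p

/-- **Semialgebraic growth**: fibres that are bounded above are bounded by a power. -/
theorem exists_growth_bound {A : Set (Fin 2 → R)} (hA : IsSemialgebraic A)
    (hb : ∀ u, ∃ M, ∀ v, ![v, u] ∈ A → v ≤ M) :
    ∃ (C : R) (N : ℕ) (B : R), 0 ≤ C ∧ 1 ≤ B ∧ ∀ u v, B < u → ![v, u] ∈ A → v ≤ C * u ^ N := by
  classical
  obtain ⟨P, hP⟩ := exists_signDetermined hA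
  have h := fun p : MvPolynomial (Fin 2) R => exists_sign_above (toNested p)
  choose Cp Np Bp hC hsign using h
  set C' := ∑ p ∈ P, Cp p with hC'
  set N' := P.sup Np
  set B' := max 1 (∑ p ∈ P, |Bp p|)
  have hC0 : 0 ≤ C' := Finset.sum_nonneg fun p _ => hC p
  refine ⟨C', N', B', hC0, le_max_left _ _, fun u v hu hv => ?_⟩
  by_contra! hlt
  obtain ⟨M, hM⟩ := hb u
  have hu1 : 1 < u := (le_max_left _ _).trans_lt hu
  have hmem : ![max (M + 1) v, u] ∈ A := (hP ![v, u] _ fun p hp => by
    have hBu : Bp p < u := lt_of_le_of_lt ((le_abs_self _).trans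
      ((Finset.single_le_sum (fun q _ => abs_nonneg (Bp q)) hp).trans (le_max_right _ _))) hu
    have hle : Cp p * u ^ Np p ≤ C' * u ^ N' := mul_le_mul
      (Finset.single_le_sum (fun q _ => hC q) hp)
      (pow_le_pow_right₀ hu1.le (Finset.le_sup hp)) (pow_nonneg (by linarith) _) hC0
    rw [← eval_toNested, ← eval_toNested]
    exact hsign p u hBu v _ (hle.trans_lt hlt) ((hle.trans_lt hlt).trans_le
      (le_max_right _ _))).1 hv
  have := hM _ hmem
  linarith [le_max_left (M + 1) v]

end Fermat.Agent.Lojasiewicz
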