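import Fermat.Agent.Lojasiewicz.Growth

/-!
# The inequality of Łojasiewicz

On a compact set the zeros of `f` are zeros of `g`; then a power of `g` is bounded by `f`, as the
largest `1 / |f|` on the levels of `|g|` is a semialgebraic function of the level.
-/

set_option autoImplicit false

noncomputable section

namespace Fermat.Agent.Lojasiewicz

open MvPolynomial Fermat.Agent.HilbertSeventeen Fermat.Agent.TarskiSeidenberg

/-- The graph of `f` over `s`, the value as first coordinate. -/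
def graphOn {n : ℕ} {R : Type*} (s : Set (Fin n → R)) (f : (Fin n → R) → R) :
    Set (Fin (n + 1) → R) :=
  {z | Fin.tail z ∈ s ∧ z 0 = f (Fin.tail z)}

theorem cons_mem_graphOn {n : ℕ} {R : Type*} {s : Set (Fin n → R)} {f : (Fin n → R) → R} {a : R}
    {x : Fin n → R} : (Fin.cons a x : Fin (n + 1) → R) ∈ graphOn s f ↔ x ∈ s ∧ a = f x := by
  simp [graphOn]

/-- Preimages under coordinate maps. -/
theorem isSemialgebraic_comp {R : Type*} [Field R] [LinearOrder R] [IsStrictOrderedRing R]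
    {n m : ℕ} {s : Set (Fin m → R)} (h : IsSemialgebraic s) (σ : Fin m → Fin n) :
    IsSemialgebraic {x : Fin n → R | x ∘ σ ∈ s} := by
  convert h.preimage (fun i => X (σ i)) using 1
  ext x
  have e : polyMap (fun i => (X (σ i) : MvPolynomial (Fin n) R)) x = x ∘ σ :=
    funext fun i => eval_X (σ i)
  simp [e]

/-- A graph over `s` shows that `s` is semialgebraic. -/
theorem isSemialgebraic_of_graphOn {n : ℕ} {s : Set (Fin n → ℝ)} {f : (Fin n → ℝ) → ℝ}
    (hf : IsSemialgebraic (graphOn s f)) : IsSemialgebraic s := by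
  convert hf.projection using 1
  ext x
  simp [cons_mem_graphOn]

variable {n : ℕ} {K : Set (Fin n → ℝ)} {f g : (Fin n → ℝ) → ℝ}

/-- The pairs `(1 / |f x|, 1 / |g x|)`. -/
theorem isSemialgebraic_levels (hfs : IsSemialgebraic (graphOn K f))
    (hgs : IsSemialgebraic (graphOn K g)) :
    IsSemialgebraic {w : Fin 2 → ℝ | ∃ x ∈ K, 0 < w 0 ∧ 0 < w 1 ∧
      g x * g x * (w 1 * w 1) = 1 ∧ f x * f x * (w 0 * w 0) = 1} := by
  let ia : Fin (n + 2 + 2) := Fin.castAdd 2 0
  let ib : Fin (n + 2 + 2) := Fin.castAdd 2 (Fin.succ 0)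
  let ix : Fin n → Fin (n + 2 + 2) := fun i => Fin.castAdd 2 i.succ.succ
  let iv : Fin (n + 2 + 2) := Fin.natAdd (n + 2) 0
  let iu : Fin (n + 2 + 2) := Fin.natAdd (n + 2) 1
  have h := (((isSemialgebraic_comp hgs (Fin.cons ia ix)).inter
    (isSemialgebraic_comp hfs (Fin.cons ib ix))).inter
    ((IsSemialgebraic.posSet (X iv : MvPolynomial (Fin (n + 2 + 2)) ℝ)).inter
    (IsSemialgebraic.posSet (X iu)))).inter
    ((IsSemialgebraic.zeroSet (X ia * X ia * (X iu * X iu) - 1)).inter
    (IsSemialgebraic.zeroSet (X ib * X ib * (X iv * X iv) - 1)))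
  convert h.projection_many using 1
  ext w
  have hc : ∀ (i : Fin (n + 2 + 2)) (y : Fin (n + 2) → ℝ),
      Fin.append y w ∘ (Fin.cons i ix : Fin (n + 1) → Fin (n + 2 + 2)) =
        Fin.cons (Fin.append y w i) (fun j => y j.succ.succ) := fun i y => by
    funext j; refine Fin.cases ?_ (fun j => ?_) j <;> simp [ix]
  simp only [Set.mem_ofPred_eq, Set.mem_inter_iff, hc, cons_mem_graphOn, eval_X, map_sub, map_mul,
    map_one, sub_eq_zero, ia, ib, iv, iu, Fin.append_left, Fin.append_right]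
  constructor
  · rintro ⟨x, hx, h0, h1, e1, e2⟩
    refine ⟨Fin.cons (g x) (Fin.cons (f x) x), ?_⟩
    simp [hx, h0, h1, e1, e2]
  · rintro ⟨y, ⟨⟨⟨hx, hg⟩, -, hf⟩, h0, h1⟩, e1, e2⟩
    rw [hg] at e1
    rw [hf] at e2
    exact ⟨_, hx, h0, h1, e1, e2⟩

/-- **The inequality of Łojasiewicz.** -/
theorem exists_pow_le (hK : IsCompact K) (hfc : ContinuousOn f K) (hgc : ContinuousOn g K)
    (hfs : IsSemialgebraic (graphOn K f)) (hgs : IsSemialgebraic (graphOn K g))
    (hzero : ∀ x ∈ K, f x = 0 → g x = 0) :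
    ∃ (C : ℝ) (N : ℕ), 0 < C ∧ 0 < N ∧ ∀ x ∈ K, |g x| ^ N ≤ C * |f x| := by
  obtain ⟨C₀, N, B, hC₀, hB, hbound⟩ :=
    exists_growth_bound (isSemialgebraic_levels hfs hgs) fun u => by
    by_cases hu : 0 < u
    swap
    · exact ⟨0, fun v ⟨x, _, _, h1, _, _⟩ => absurd h1 hu⟩
    set L := K ∩ (fun x => |g x|) ⁻¹' {1 / u}
    have hL : IsCompact L := hK.of_isClosed_subset
      (hgc.abs.preimage_isClosed_of_isClosed hK.isClosed isClosed_singleton) Set.inter_subset_left
    rcases L.eq_empty_or_nonempty with he | hne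
    · refine ⟨0, fun v ⟨x, hx, _, _, e1, _⟩ => ?_⟩
      have : x ∈ L := ⟨hx, by
        rw [Set.mem_preimage, Set.mem_singleton_iff, eq_div_iff hu.ne']
        exact (mul_self_eq_one_iff.1 (show |g x| * u * (|g x| * u) = 1 by
          rw [← mul_mul_mul_comm, abs_mul_abs_self]; exact e1)).resolve_right fun e => by
            nlinarith [abs_nonneg (g x), mul_nonneg (abs_nonneg (g x)) hu.le]⟩
      rw [he] at this
      exact this.elim
    · obtain ⟨x₀, hx₀, hmin⟩ := hL.exists_isMinOn hne (hfc.abs.mono Set.inter_subset_left)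
      have hpos : 0 < |f x₀| := abs_pos.2 fun e => by
        have h := hx₀.2
        rw [Set.mem_preimage, Set.mem_singleton_iff, hzero _ hx₀.1 e, abs_zero, eq_comm,
          one_div, inv_eq_zero] at h
        exact hu.ne' h
      refine ⟨1 / |f x₀|, fun v ⟨x, hx, hv, _, e1, e2⟩ => ?_⟩
      change 0 < v at hv
      have hxL : x ∈ L := ⟨hx, by
        rw [Set.mem_preimage, Set.mem_singleton_iff, eq_div_iff hu.ne']
        exact (mul_self_eq_one_iff.1 (show |g x| * u * (|g x| * u) = 1 by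
          rw [← mul_mul_mul_comm, abs_mul_abs_self]; exact e1)).resolve_right fun e => by
            nlinarith [abs_nonneg (g x), mul_nonneg (abs_nonneg (g x)) hu.le]⟩
      have hle : |f x₀| ≤ |f x| := hmin hxL
      have e : |f x| * v = 1 := (mul_self_eq_one_iff.1 (show |f x| * v * (|f x| * v) = 1 by
          rw [← mul_mul_mul_comm, abs_mul_abs_self]; exact e2)).resolve_right fun e => by
            nlinarith [abs_nonneg (f x), mul_nonneg (abs_nonneg (f x)) hv.le]
      rw [le_div_iff₀ hpos]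
      nlinarith
  obtain ⟨M, hM⟩ := hK.exists_bound_of_continuousOn hgc
  have hM' : ∀ x ∈ K, |g x| ≤ max M 1 := fun x hx => (hM x hx).trans (le_max_left _ _)
  set L := K ∩ (fun x => |g x|) ⁻¹' Set.Ici (1 / B)
  have hL : IsCompact L := hK.of_isClosed_subset
    (hgc.abs.preimage_isClosed_of_isClosed hK.isClosed isClosed_Ici) Set.inter_subset_left
  obtain ⟨m, hm, hmle⟩ : ∃ m, 0 < m ∧ ∀ x ∈ L, m ≤ |f x| := by
    refine (L.eq_empty_or_nonempty).elim (fun e => ⟨1, one_pos, fun x hx => ?_⟩) fun hne => ?_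
    · rw [e] at hx; exact hx.elim
    · obtain ⟨x₀, hx₀, hmin⟩ := hL.exists_isMinOn hne (hfc.abs.mono Set.inter_subset_left)
      refine ⟨|f x₀|, abs_pos.2 fun e => ?_, fun x hx => hmin hx⟩
      have := hx₀.2
      rw [Set.mem_preimage, Set.mem_Ici, hzero _ hx₀.1 e, abs_zero] at this
      exact this.not_gt (by positivity)
  have hMpos : 0 < max M 1 := lt_of_lt_of_le one_pos (le_max_right _ _)
  refine ⟨max M 1 * C₀ + max M 1 ^ (N + 1) / m, N + 1, by positivity, N.succ_pos, fun x hx => ?_⟩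
  rcases eq_or_ne (g x) 0 with hg | hg
  · rw [hg, abs_zero, zero_pow N.succ_ne_zero]
    positivity
  rw [add_mul]
  rcases le_or_gt (1 / B) |g x| with h | h
  · have hfx := hmle x ⟨hx, h⟩
    refine le_add_of_nonneg_of_le (by positivity)
      ((pow_le_pow_left₀ (abs_nonneg _) (hM' x hx) _).trans ?_)
    rw [div_mul_eq_mul_div, le_div_iff₀ hm]
    exact mul_le_mul_of_nonneg_left hfx (by positivity)
  · have hgpos : 0 < |g x| := abs_pos.2 hg
    have hfpos : 0 < |f x| := abs_pos.2 fun e => hg (hzero x hx e)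
    have hu : B < 1 / |g x| := by
      rw [lt_div_iff₀ hgpos, mul_comm]
      exact (lt_div_iff₀ (lt_of_lt_of_le one_pos hB)).1 h
    have hv := hbound (1 / |g x|) (1 / |f x|) hu ⟨x, hx, show 0 < 1 / |f x| by positivity,
      show 0 < 1 / |g x| by positivity,
      show g x * g x * (1 / |g x| * (1 / |g x|)) = 1 by
        rw [← abs_mul_abs_self (g x)]; field_simp,
      show f x * f x * (1 / |f x| * (1 / |f x|)) = 1 by
        rw [← abs_mul_abs_self (f x)]; field_simp⟩
    rw [div_pow, one_pow, mul_one_div, div_le_div_iff₀ hfpos (pow_pos hgpos _), one_mul] at hv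
    refine le_add_of_le_of_nonneg ?_ (by positivity)
    rw [pow_succ']
    calc |g x| * |g x| ^ N ≤ max M 1 * (C₀ * |f x|) :=
          mul_le_mul (hM' x hx) hv (by positivity) hMpos.le
      _ = max M 1 * C₀ * |f x| := by ring

end Fermat.Agent.Lojasiewicz
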