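import Fermat.Agent.Lojasiewicz.Consequences

/-!
# The monotonicity theorem

A semialgebraic function of a real variable is continuous off countably many points, the boundary
points of its level sets at rational heights, and takes countably many values at local extremes.
Both exceptional sets are semialgebraic, so between finitely many points the function is
continuous, and constant or without local extremes.
-/

set_option autoImplicit false

noncomputable section

namespace Fermat.Agent.Lojasiewicz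

open MvPolynomial Fermat.Agent.HilbertSeventeen Fermat.Agent.TarskiSeidenberg

variable {f : ℝ → ℝ}

/-- A point outside finitely many is surrounded by an interval outside them. -/
theorem exists_interval_free (F : Finset ℝ) {u : ℝ} (hu : u ∉ F) :
    ∃ δ > 0, ∀ c ∈ F, c < u - δ ∨ u + δ < c := by
  classical
  induction F using Finset.induction_on with
  | empty => exact ⟨1, one_pos, fun c hc => absurd hc (Finset.notMem_empty c)⟩
  | insert a F _ ih =>
    rw [Finset.mem_insert, not_or] at hu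
    obtain ⟨δ, hδ, h⟩ := ih hu.2
    have ha : 0 < |a - u| := abs_pos.2 (sub_ne_zero.2 (Ne.symm hu.1))
    refine ⟨min δ (|a - u| / 2), lt_min hδ (by linarith), fun c hc => ?_⟩
    rcases Finset.mem_insert.1 hc with rfl | hc
    · rcases lt_or_ge c u with hlt | hge
      · rw [abs_of_neg (sub_neg.2 hlt)]
        left; linarith [min_le_right δ (-(c - u) / 2)]
      · rw [abs_of_nonneg (sub_nonneg.2 hge)] at ha ⊢
        right; linarith [min_le_right δ ((c - u) / 2)]
    · exact (h c hc).imp (fun h => by linarith [min_le_left δ (|a - u| / 2)])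
        fun h => by linarith [min_le_left δ (|a - u| / 2)]

/-- An open interval in a semialgebraic set of the line, or outside it, between finitely many
points. -/
theorem exists_dichotomy {M : Set ℝ} (h : IsSemialgebraic {x : Fin 1 → ℝ | x 0 ∈ M}) :
    ∃ F : Finset ℝ, ∀ a b : ℝ, (∀ c ∈ F, c ∉ Set.Ioo a b) →
      Set.Ioo a b ⊆ M ∨ Disjoint (Set.Ioo a b) M := by
  obtain ⟨F, hF⟩ := h.exists_finset
  refine ⟨F, fun a b hab => ?_⟩
  by_cases hM : ∃ u ∈ Set.Ioo a b, u ∈ M
  · obtain ⟨u, hu, huM⟩ := hM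
    refine Or.inl fun v hv => ?_
    rcases le_total u v with huv | huv
    · refine (hF u v huv fun c hc => ?_).1 huM
      by_contra! hcon
      exact hab c hc ⟨hu.1.trans_le hcon.1, hcon.2.trans_lt hv.2⟩
    · refine (hF v u huv fun c hc => ?_).2 huM
      by_contra! hcon
      exact hab c hc ⟨hv.1.trans_le hcon.1, hcon.2.trans_lt hu.2⟩
  · exact Or.inr (Set.disjoint_left.2 fun u hu huM => hM ⟨u, hu, huM⟩)

/-- The local maxima. -/
def maxSet (f : ℝ → ℝ) : Set ℝ :=
  {u | ∃ δ > 0, ∀ y, |y - u| < δ → f y ≤ f u}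

/-- The points of discontinuity. -/
def jumpSet (f : ℝ → ℝ) : Set ℝ :=
  {u | ∃ ε > 0, ∀ δ > 0, ∃ y, |y - u| < δ ∧ ε ≤ |f y - f u|}

theorem continuousAt_of_not_mem_jumpSet {u : ℝ} (h : u ∉ jumpSet f) : ContinuousAt f u := by
  rw [Metric.continuousAt_iff]
  intro ε hε
  by_contra! hcon
  refine h ⟨ε, hε, fun δ hδ => ?_⟩
  obtain ⟨y, h1, h2⟩ := hcon δ hδ
  exact ⟨y, h1, h2⟩

section semialgebraic

variable (hf : IsSemialgebraic {z : Fin 2 → ℝ | z 0 = f (z 1)})

include hf

theorem isSemialgebraic_maxSet : IsSemialgebraic {x : Fin 1 → ℝ | x 0 ∈ maxSet f} := by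
  have bad := ((isSemialgebraic_comp hf ![(1 : Fin 5), 0]).inter
    ((IsSemialgebraic.posSet (X 2 - (X 0 - X 4) : MvPolynomial (Fin 5) ℝ)).inter
    ((IsSemialgebraic.posSet (X 2 + (X 0 - X 4))).inter
    (IsSemialgebraic.posSet (X 1 - X 3))))).projection.projection
  have good := ((isSemialgebraic_comp hf ![(1 : Fin 3), 2]).inter
    ((IsSemialgebraic.posSet (X 0 : MvPolynomial (Fin 3) ℝ)).inter bad.compl)).projection.projection
  convert good using 1
  ext x
  simp only [maxSet, Set.mem_ofPred_eq, Set.mem_inter_iff, Set.mem_compl_iff, Function.comp_apply,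
    Matrix.cons_val_zero, Matrix.cons_val_one, eval_X, map_sub, map_add, not_exists, not_and]
  constructor
  · rintro ⟨δ, hδ, h⟩
    refine ⟨f (x 0), δ, rfl, hδ, fun b y hb h1 h2 h3 => ?_⟩
    change b = f y at hb
    change 0 < δ - (y - x 0) at h1
    change 0 < δ + (y - x 0) at h2
    change 0 < b - f (x 0) at h3
    linarith [h y (abs_lt.2 ⟨by linarith, by linarith⟩)]
  · rintro ⟨a, δ, ha, hδ, h⟩
    change a = f (x 0) at ha
    change 0 < δ at hδ
    refine ⟨δ, hδ, fun y hy => ?_⟩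
    by_contra! hlt
    rw [abs_lt] at hy
    refine h (f y) y rfl ?_ ?_ ?_
    · show 0 < δ - (y - x 0)
      linarith
    · show 0 < δ + (y - x 0)
      linarith
    · show 0 < f y - a
      linarith

theorem isSemialgebraic_jumpSet : IsSemialgebraic {x : Fin 1 → ℝ | x 0 ∈ jumpSet f} := by
  have far := ((isSemialgebraic_comp hf ![(1 : Fin 6), 0]).inter
    ((IsSemialgebraic.posSet (X 2 - (X 0 - X 5) : MvPolynomial (Fin 6) ℝ)).inter
    ((IsSemialgebraic.posSet (X 2 + (X 0 - X 5))).inter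
    ((isSemialgebraic_nonneg (X 1 - X 4 - X 3)).union
      (isSemialgebraic_nonneg (X 4 - X 1 - X 3)))))).projection.projection
  have bad := ((IsSemialgebraic.posSet (X 0 : MvPolynomial (Fin 4) ℝ)).inter far.compl).projection
  have jump := ((isSemialgebraic_comp hf ![(1 : Fin 3), 2]).inter
    ((IsSemialgebraic.posSet (X 0 : MvPolynomial (Fin 3) ℝ)).inter
      bad.compl)).projection.projection
  convert jump using 1
  ext x
  simp only [jumpSet, Set.mem_ofPred_eq, Set.mem_inter_iff, Set.mem_union, Set.mem_compl_iff,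
    Function.comp_apply, Matrix.cons_val_zero, Matrix.cons_val_one, eval_X, map_sub, map_add,
    not_exists, not_and]
  constructor
  · rintro ⟨ε, hε, h⟩
    refine ⟨f (x 0), ε, rfl, hε, fun δ hδ hcon => ?_⟩
    obtain ⟨y, h1, h2⟩ := h δ hδ
    rw [abs_lt] at h1
    refine hcon (f y) y rfl ?_ ?_ ?_
    · show 0 < δ - (y - x 0)
      linarith
    · show 0 < δ + (y - x 0)
      linarith
    · show 0 ≤ f y - f (x 0) - ε ∨ 0 ≤ f (x 0) - f y - ε
      rcases le_abs.1 h2 with h | h
      · left; linarith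
      · right; linarith
  · rintro ⟨a, ε, ha, hε, h⟩
    change a = f (x 0) at ha
    change 0 < ε at hε
    refine ⟨ε, hε, fun δ hδ => ?_⟩
    by_contra! hcon
    refine h δ hδ fun b y hb h1 h2 h3 => ?_
    change b = f y at hb
    change 0 < δ - (y - x 0) at h1
    change 0 < δ + (y - x 0) at h2
    change 0 ≤ b - a - ε ∨ 0 ≤ a - b - ε at h3
    subst hb ha
    have := abs_lt.1 (hcon y (abs_lt.2 ⟨by linarith, by linarith⟩))
    rcases h3 with h3 | h3 <;> linarith

theorem exists_level_points (c : ℝ) :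
    ∃ F : Finset ℝ, ∀ u ∉ F, ∃ δ > 0, ∀ y, |y - u| < δ →
      ((f y < c ↔ f u < c) ∧ (c < f y ↔ c < f u)) := by
  classical
  have h1 := (hf.inter (IsSemialgebraic.posSet (C c - X 0 : MvPolynomial (Fin 2) ℝ))).projection
  have h2 := (hf.inter (IsSemialgebraic.posSet (X 0 - C c : MvPolynomial (Fin 2) ℝ))).projection
  obtain ⟨F₁, hF₁⟩ := h1.exists_finset
  obtain ⟨F₂, hF₂⟩ := h2.exists_finset
  refine ⟨F₁ ∪ F₂, fun u hu => ?_⟩
  obtain ⟨δ, hδ, hfree⟩ := exists_interval_free _ hu
  have key : ∀ (F : Finset ℝ) (T : Set (Fin 1 → ℝ)) (P : ℝ → Prop), F ⊆ F₁ ∪ F₂ →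
      (∀ a b : ℝ, a ≤ b → (∀ e ∈ F, e < a ∨ b < e) → ((fun _ => a) ∈ T ↔ (fun _ => b) ∈ T)) →
      (∀ a, (fun _ => a) ∈ T ↔ P a) → ∀ y, |y - u| < δ → (P y ↔ P u) := by
    intro F T P hsub hT hP y hy
    rw [abs_lt] at hy
    rcases le_total u y with h | h
    · rw [← hP, ← hP]
      exact (hT u y h fun e he => (hfree e (hsub he)).imp (fun h' => by linarith)
        fun h' => by linarith).symm
    · rw [← hP, ← hP]
      exact hT y u h fun e he => (hfree e (hsub he)).imp (fun h' => by linarith)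
        fun h' => by linarith
  refine ⟨δ, hδ, fun y hy =>
    ⟨key F₁ _ (fun a => f a < c) Finset.subset_union_left hF₁ (fun a => ?_) y hy,
      key F₂ _ (fun a => c < f a) Finset.subset_union_right hF₂ (fun a => ?_) y hy⟩⟩
  · simp only [Set.mem_ofPred_eq, Set.mem_inter_iff, map_sub, eval_C, eval_X, sub_pos]
    exact ⟨fun ⟨t, e, h⟩ => by change t = f a at e; change t < c at h; rwa [← e],
      fun h => ⟨f a, rfl, h⟩⟩
  · simp only [Set.mem_ofPred_eq, Set.mem_inter_iff, map_sub, eval_C, eval_X, sub_pos]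
    exact ⟨fun ⟨t, e, h⟩ => by change t = f a at e; change c < t at h; rwa [← e],
      fun h => ⟨f a, rfl, h⟩⟩

theorem countable_jumpSet : (jumpSet f).Countable := by
  choose F hF using fun q : ℚ => exists_level_points hf (q : ℝ)
  refine (Set.countable_iUnion fun q => (F q).finite_toSet.countable).mono fun u hu => ?_
  by_contra hmem
  simp only [Set.mem_iUnion, Finset.mem_coe, not_exists] at hmem
  obtain ⟨ε, hε, h⟩ := hu
  obtain ⟨q, hq1, hq2⟩ := exists_rat_btwn (show f u < f u + ε by linarith)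
  obtain ⟨r, hr1, hr2⟩ := exists_rat_btwn (show f u - ε < f u by linarith)
  obtain ⟨δ, hδ, hq⟩ := hF q u (hmem q)
  obtain ⟨δ', hδ', hr⟩ := hF r u (hmem r)
  obtain ⟨y, hy, hge⟩ := h (min δ δ') (lt_min hδ hδ')
  have e1 := (hq y (hy.trans_le (min_le_left _ _))).1.2 hq1
  have e2 := (hr y (hy.trans_le (min_le_right _ _))).2.2 hr2
  rcases le_abs.1 hge with h' | h' <;> linarith

end semialgebraic

/-- A function takes only countably many values at its local maxima. -/
theorem countable_maxValues (f : ℝ → ℝ) : (f '' maxSet f).Countable := by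
  have : ∀ p : ℚ × ℚ, Set.Subsingleton
      {v : ℝ | ∃ u ∈ Set.Ioo (p.1 : ℝ) p.2, f u = v ∧ ∀ y ∈ Set.Ioo (p.1 : ℝ) p.2, f y ≤ f u} := by
    rintro p v ⟨u, hu, rfl, hmax⟩ w ⟨u', hu', rfl, hmax'⟩
    exact le_antisymm (hmax' u hu) (hmax u' hu')
  refine (Set.countable_iUnion fun p => (this p).finite.countable).mono ?_
  rintro v ⟨u, ⟨δ, hδ, hmax⟩, rfl⟩
  obtain ⟨p, hp1, hp2⟩ := exists_rat_btwn (show u - δ < u by linarith)
  obtain ⟨q, hq1, hq2⟩ := exists_rat_btwn (show u < u + δ by linarith)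
  exact Set.mem_iUnion.2 ⟨(p, q), u, ⟨hp2, hq1⟩, rfl, fun y hy =>
    hmax y (abs_lt.2 ⟨by linarith [hy.1], by linarith [hy.2]⟩)⟩

/-- A continuous function with countably many values on an interval is constant there. -/
theorem exists_const_of_countable {a b : ℝ} (hc : ContinuousOn f (Set.Ioo a b))
    (h : (f '' Set.Ioo a b).Countable) : ∃ c, ∀ x ∈ Set.Ioo a b, f x = c := by
  rcases (Set.Ioo a b).eq_empty_or_nonempty with e | ⟨x₀, hx₀⟩
  · exact ⟨0, fun x hx => by rw [e] at hx; exact hx.elim⟩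
  refine ⟨f x₀, fun x hx => ?_⟩
  have key : ∀ y ∈ Set.Ioo a b, ∀ z ∈ Set.Ioo a b, f z ≤ f y := fun y hy z hz => by
    by_contra! hlt
    exact (Cardinal.Real.Ioo_countable_iff.1 (h.mono (Set.Ioo_subset_Icc_self.trans
      (isPreconnected_Ioo.intermediate_value hy hz hc)))).not_gt hlt
  exact le_antisymm (key x₀ hx₀ x hx) (key x hx x₀ hx₀)

theorem isSemialgebraic_neg_graph (hf : IsSemialgebraic {z : Fin 2 → ℝ | z 0 = f (z 1)}) :
    IsSemialgebraic {z : Fin 2 → ℝ | z 0 = -f (z 1)} := by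
  convert hf.preimage ![-X 0, X 1] using 1
  ext z
  simp only [Set.mem_ofPred_eq, Set.mem_preimage, polyMap, Matrix.cons_val_zero,
    Matrix.cons_val_one, map_neg, eval_X]
  exact ⟨fun e => by rw [e, neg_neg], fun e => by rw [← e, neg_neg]⟩

/-- **The monotonicity theorem.** -/
theorem exists_monotone_pieces (hf : IsSemialgebraic {z : Fin 2 → ℝ | z 0 = f (z 1)}) :
    ∃ F : Finset ℝ, ∀ a b : ℝ, a < b → (∀ c ∈ F, c ∉ Set.Ioo a b) →
      ContinuousOn f (Set.Ioo a b) ∧ (StrictMonoOn f (Set.Ioo a b) ∨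
        StrictAntiOn f (Set.Ioo a b) ∨ ∃ c, ∀ x ∈ Set.Ioo a b, f x = c) := by
  classical
  obtain ⟨F₁, h1⟩ := exists_dichotomy (isSemialgebraic_jumpSet hf)
  obtain ⟨F₂, h2⟩ := exists_dichotomy (isSemialgebraic_maxSet hf)
  obtain ⟨F₃, h3⟩ := exists_dichotomy (isSemialgebraic_maxSet (f := fun x => -f x)
    (isSemialgebraic_neg_graph hf))
  refine ⟨F₁ ∪ F₂ ∪ F₃, fun a b hab hfree => ?_⟩
  simp only [Finset.mem_union] at hfree
  have hcont : ContinuousOn f (Set.Ioo a b) := by
    rcases h1 a b fun c hc => hfree c (Or.inl (Or.inl hc)) with h | h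
    · exact absurd (Cardinal.Real.Ioo_countable_iff.1 ((countable_jumpSet hf).mono h)) hab.not_ge
    · exact fun u hu =>
        (continuousAt_of_not_mem_jumpSet (Set.disjoint_left.1 h hu)).continuousWithinAt
  refine ⟨hcont, ?_⟩
  rcases h2 a b fun c hc => hfree c (Or.inl (Or.inr hc)) with hmax | hmax
  · exact Or.inr (Or.inr (exists_const_of_countable hcont
      ((countable_maxValues f).mono (Set.image_mono hmax))))
  rcases h3 a b fun c hc => hfree c (Or.inr hc) with hmin | hmin
  · obtain ⟨c, hc⟩ := exists_const_of_countable (f := fun x => -f x) hcont.neg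
      ((countable_maxValues fun x => -f x).mono (Set.image_mono hmin))
    exact Or.inr (Or.inr ⟨-c, fun x hx => by rw [← hc x hx, neg_neg]⟩)
  have hinj : ∀ x y, a < x → x < y → y < b → f x ≠ f y := by
    intro x y hx hxy hy e
    have hsub : Set.Icc x y ⊆ Set.Ioo a b := fun z hz =>
      ⟨hx.trans_le hz.1, hz.2.trans_lt hy⟩
    obtain ⟨c, hc, hcext⟩ := exists_Ioo_extr_on_Icc hxy (hcont.mono hsub) e
    have hloc := hcext.isLocalExtr (Icc_mem_nhds hc.1 hc.2)
    have hcab := hsub (Set.Ioo_subset_Icc_self hc)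
    rcases hloc with h | h
    · obtain ⟨δ, hδ, h⟩ := Metric.eventually_nhds_iff.1 h
      exact Set.disjoint_left.1 hmin hcab ⟨δ, hδ, fun z hz =>
        neg_le_neg (h (by rwa [Real.dist_eq]))⟩
    · obtain ⟨δ, hδ, h⟩ := Metric.eventually_nhds_iff.1 h
      exact Set.disjoint_left.1 hmax hcab ⟨δ, hδ, fun z hz => h (by rwa [Real.dist_eq])⟩
  have hinj' : Set.InjOn f (Set.Ioo a b) := fun x hx y hy e => by
    rcases lt_trichotomy x y with h | h | h
    · exact absurd e (hinj x y hx.1 h hy.2)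
    · exact h
    · exact absurd e.symm (hinj y x hy.1 h hx.2)
  exact (hcont.strictMonoOn_of_injOn_Ioo hab hinj').imp_right Or.inl

/-- Near infinity a semialgebraic function is continuous and monotone. -/
theorem exists_eventually_monotone (hf : IsSemialgebraic {z : Fin 2 → ℝ | z 0 = f (z 1)}) :
    ∃ B : ℝ, ContinuousOn f (Set.Ioi B) ∧
      (MonotoneOn f (Set.Ioi B) ∨ AntitoneOn f (Set.Ioi B)) := by
  obtain ⟨F, hF⟩ := exists_monotone_pieces hf
  set B := ∑ c ∈ F, |c|
  have hfree : ∀ x, ∀ c ∈ F, c ∉ Set.Ioo B x := fun x c hc h => h.1.not_ge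
    ((le_abs_self c).trans (Finset.single_le_sum (fun c _ => abs_nonneg c) hc))
  have hpiece : ∀ x, B < x →
      ContinuousOn f (Set.Ioo B x) ∧ (MonotoneOn f (Set.Ioo B x) ∨ AntitoneOn f (Set.Ioo B x)) :=
    fun x hx => by
    obtain ⟨hc, h⟩ := hF B x hx (hfree x)
    refine ⟨hc, ?_⟩
    rcases h with h | h | ⟨c, h⟩
    · exact Or.inl h.monotoneOn
    · exact Or.inr h.antitoneOn
    · exact Or.inl fun y hy z hz _ => by rw [h y hy, h z hz]
  refine ⟨B, fun u hu => ?_, ?_⟩
  · exact ((hpiece (u + 1) (by linarith [Set.mem_Ioi.1 hu])).1.continuousAt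
      (Ioo_mem_nhds hu (by linarith))).continuousWithinAt
  by_contra! hcon
  simp only [MonotoneOn, AntitoneOn, not_forall, not_le, exists_prop] at hcon
  obtain ⟨⟨x, hx, y, hy, hxy, h1⟩, x', hx', y', hy', hxy', h2⟩ := hcon
  set m := max y y' + 1
  have hm : ∀ z, B < z → z ≤ max y y' → z ∈ Set.Ioo B m := fun z h h' => ⟨h, by linarith⟩
  rcases (hpiece m ((Set.mem_Ioi.1 hy).trans_le (by
      show y ≤ m; linarith [le_max_left y y']))).2 with h | h
  · exact h1.not_ge (h (hm x hx (hxy.trans (le_max_left _ _))) (hm y hy (le_max_left _ _)) hxy)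
  · exact h2.not_ge
      (h (hm x' hx' (hxy'.trans (le_max_right _ _))) (hm y' hy' (le_max_right _ _)) hxy')

end Fermat.Agent.Lojasiewicz
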